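import Fermat.Agent.S55.H.QIndex

/-!
# S55, chapter H: `q_p` of finitely generated abelian groups
-/

set_option autoImplicit false

namespace Fermat.Agent.S55Lib

section

variable {A : Type} [AddCommGroup A]

/-- `ℤ^n`-like groups: a free `ℤ`-module of rank `n` has `q_p = p^n` -/
theorem qInd_mulp_free (p : ℕ) [Fact p.Prime] [Module.Free ℤ A] [Module.Finite ℤ A] :
    QFin (mulp p A) ∧ qInd (mulp p A) = (p : ℚ) ^ Module.finrank ℤ A := by
  have hp : p.Prime := Fact.out
  set n := Module.finrank ℤ A with hn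
  let e : A ≃ₗ[ℤ] (Fin n → ℤ) := (Module.finBasis ℤ A).equivFun
  let φ : A →+ (Fin n → ZMod p) :=
    { toFun := fun a i => ((e a i : ℤ) : ZMod p)
      map_zero' := by ext i; simp
      map_add' := fun a b => by ext i; simp }
  have hφ : Function.Surjective φ := by
    intro t
    choose c hc using fun i => ZMod.intCast_surjective (t i)
    refine ⟨e.symm c, ?_⟩
    ext i
    show ((e (e.symm c) i : ℤ) : ZMod p) = t i
    rw [e.apply_symm_apply, hc]
  have hker : φ.ker = (mulp p A).range := by
    ext a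
    constructor
    · intro ha
      have h1 : ∀ i, (p : ℤ) ∣ e a i := fun i =>
        (ZMod.intCast_zmod_eq_zero_iff_dvd _ _).1 (congrFun ha i)
      choose c hc using h1
      refine ⟨e.symm c, ?_⟩
      apply e.injective
      show e (p • e.symm c) = e a
      rw [map_nsmul, e.apply_symm_apply]
      ext i
      rw [hc i]
      simp
    · rintro ⟨b, rfl⟩
      ext i
      show ((e (p • b) i : ℤ) : ZMod p) = 0
      rw [map_nsmul]
      simp
  have h1 : (mulp p A).range.index = p ^ n := by
    rw [← hker, AddSubgroup.index_ker, AddMonoidHom.range_eq_top.2 hφ, AddSubgroup.card_top,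
      Nat.card_fun, Nat.card_zmod, Nat.card_fin]
  have h2 : (mulp p A).ker = ⊥ := by
    rw [AddMonoidHom.ker_eq_bot_iff]
    intro a b hab
    have h3 : (p : ℤ) • a = (p : ℤ) • b := by
      rw [natCast_zsmul, natCast_zsmul]
      exact hab
    exact smul_right_injective A (by exact_mod_cast hp.ne_zero : (p : ℤ) ≠ 0) h3
  have h3 : Nat.card (mulp p A).ker = 1 := by rw [h2, AddSubgroup.card_bot]
  refine ⟨Chev_qFin_iff.2 ⟨by rw [h1]; exact pow_ne_zero _ hp.ne_zero, by
    rw [h3]; exact one_ne_zero⟩, ?_⟩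
  rw [Chev_qInd_eq, h1, h3]
  simp

/-- finitely generated abelian groups: `q_p = p^rank` -/
theorem qInd_mulp_fg (p : ℕ) [Fact p.Prime] [Module.Finite ℤ A] :
    QFin (mulp p A) ∧ qInd (mulp p A) = (p : ℚ) ^ Module.finrank ℤ A := by
  set T : Submodule ℤ A := Submodule.torsion ℤ A with hT
  have hTt : Module.IsTorsion ℤ T := Submodule.torsion_isTorsion
  have : Finite T := Module.finite_of_fg_torsion T hTt
  have : Module.Free ℤ (A ⧸ T) := Module.free_of_finite_type_torsion_free'
  have hrank : Module.finrank ℤ (A ⧸ T) = Module.finrank ℤ A := by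
    have h1 := Submodule.finrank_quotient_add_finrank T
    rw [Module.finrank_eq_zero_iff_isTorsion.2 hTt, add_zero] at h1
    exact h1
  obtain ⟨f1, f2⟩ := qInd_of_finite (mulp p T)
  obtain ⟨g1, g2⟩ := qInd_mulp_free (A := A ⧸ T) p
  obtain ⟨r1, r2⟩ := qInd_ses T.subtype.toAddMonoidHom T.mkQ.toAddMonoidHom Subtype.coe_injective
    (Submodule.mkQ_surjective T) (fun a => by
      constructor
      · intro h
        exact ⟨⟨a, (Submodule.Quotient.mk_eq_zero T).1 h⟩, rfl⟩
      · rintro ⟨a', rfl⟩
        exact (Submodule.Quotient.mk_eq_zero T).2 a'.2)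
    (mulp p T) (mulp p A) (mulp p (A ⧸ T)) (fun a => rfl) (fun a => rfl) f1 g1
  exact ⟨r1, by rw [r2, f2, g2, one_mul, hrank]⟩

end

end Fermat.Agent.S55Lib
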