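import Fermat.Agent.S55.H.Cyclo

/-!
# S55, chapter H: Chevalley's formula
-/

set_option autoImplicit false

namespace Fermat.Agent.S55Lib

section Chevalley

variable {A : Type} [AddCommGroup A]

/-- conversion: an endomorphism of a subgroup induced by an endomorphism of the group -/
lemma Chev_conv (S : AddSubgroup A) (g : S →+ S) (f : A →+ A) (h : ∀ x : S, ((g x : S) : A) = f x) :
    g.range.index = (S.map f).relIndex S ∧ Nat.card g.ker = Nat.card ↥(f.ker ⊓ S) := by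
  have hinj : Function.Injective S.subtype := Subtype.coe_injective
  constructor
  · have h1 : g.range.map S.subtype = S.map f := by
      ext y
      constructor
      · rintro ⟨_, ⟨x, rfl⟩, rfl⟩
        exact ⟨x, x.2, (h x).symm⟩
      · rintro ⟨x, hx, rfl⟩
        exact ⟨g ⟨x, hx⟩, ⟨⟨x, hx⟩, rfl⟩, h ⟨x, hx⟩⟩
    rw [← AddSubgroup.relIndex_top_right, ← AddSubgroup.relIndex_map_map_of_injective _ _ hinj, h1,
      ← AddMonoidHom.range_eq_map, AddSubgroup.range_subtype]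
  · have h1 : g.ker.map S.subtype = f.ker ⊓ S := by
      ext y
      constructor
      · rintro ⟨x, hx, rfl⟩
        refine ⟨?_, x.2⟩
        show f x = 0
        rw [← h x, (AddMonoidHom.mem_ker).1 hx]
        rfl
      · rintro ⟨hy, hyS⟩
        refine ⟨⟨y, hyS⟩, ?_, rfl⟩
        apply Subtype.ext
        rw [h]
        exact hy
    rw [← AddSubgroup.relIndex_bot_left g.ker, ← AddSubgroup.relIndex_bot_left (f.ker ⊓ S), ← h1,
      ← AddSubgroup.relIndex_map_map_of_injective ⊥ g.ker hinj, AddSubgroup.map_bot]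

lemma Chev_mulp_coe (p : ℕ) (S : AddSubgroup A) (x : S) :
    ((mulp p S x : S) : A) = mulp p A x := rfl

variable (p : ℕ) [hp : Fact p.Prime] (σ : AddMonoid.End A)

omit hp in
lemma Chev_DN (hσ : σ ^ p = 1) (a : A) : (σ - 1 : AddMonoid.End A) (normσ p σ a) = 0 := by
  have : (σ - 1) * normσ p σ = 0 := by
    rw [normσ, mul_geom_sum, hσ, sub_self]
  exact congrArg (fun f : AddMonoid.End A => f a) this

omit hp in
lemma Chev_ND (hσ : σ ^ p = 1) (a : A) : normσ p σ ((σ - 1 : AddMonoid.End A) a) = 0 := by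
  have : normσ p σ * (σ - 1) = 0 := by
    rw [normσ, geom_sum_mul, hσ, sub_self]
  exact congrArg (fun f : AddMonoid.End A => f a) this

omit hp in
lemma Chev_pow_fix {a : A} (ha : σ a = a) (i : ℕ) : (σ ^ i) a = a := by
  induction i with
  | zero => rfl
  | succ i ih =>
    rw [pow_succ]
    show (σ ^ i) (σ a) = a
    rw [ha, ih]

omit hp in
lemma Chev_N_fix {a : A} (ha : a ∈ fixσ σ) : normσ p σ a = p • a := by
  have ha' : σ a = a := by
    have : (σ - 1 : AddMonoid.End A) a = 0 := ha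
    exact sub_eq_zero.1 this
  have h1 : normσ p σ a = ∑ i ∈ Finset.range p, (σ ^ i) a := by
    unfold normσ
    exact AddMonoidHom.finsetSum_apply _ _ _
  rw [h1, Finset.sum_congr rfl (fun i _ => Chev_pow_fix σ ha' i), Finset.sum_const,
    Finset.card_range]

omit hp in
/-- index calculus: `h(A) = q_p(A^σ) / q_D(DA)` in multiplicative form -/
lemma Chev_R1 (D N P : A →+ A) (hDN : ∀ a, D (N a) = 0) (hND : ∀ a, N (D a) = 0)
    (hNP : ∀ a ∈ D.ker, N a = P a) :
    ∃ x w v : ℕ,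
      (D.ker.map P).relIndex D.ker = N.range.relIndex D.ker * x ∧
      (D.range.map D).relIndex D.range = x * w ∧
      D.range.relIndex N.ker = v * w ∧
      Nat.card ↥(P.ker ⊓ D.ker) = v * Nat.card ↥(D.ker ⊓ D.range) := by
  set Bσ := D.ker with hBσ
  set BN := N.ker with hBN
  set M := D.range with hM
  set RN := N.range with hRN
  have hMBN : M ≤ BN := by
    rintro _ ⟨a, rfl⟩
    exact hND a
  have hRNB : RN ≤ Bσ := by
    rintro _ ⟨a, rfl⟩
    exact hDN a
  have hsup : (M ⊔ Bσ) ⊔ BN = Bσ ⊔ BN := by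
    apply le_antisymm
    · exact sup_le (sup_le (hMBN.trans le_sup_right) le_sup_left) le_sup_right
    · exact sup_le (le_sup_right.trans le_sup_left) le_sup_right
  have hmod : (M ⊔ Bσ) ⊓ BN = M ⊔ Bσ ⊓ BN := sup_inf_assoc_of_le Bσ hMBN
  refine ⟨(Bσ ⊔ BN).index, (M ⊔ Bσ).relIndex BN, M.relIndex (Bσ ⊓ BN), ?_, ?_, ?_, ?_⟩
  · have h1 : Bσ.map P = Bσ.map N := by
      ext y
      constructor
      · rintro ⟨a, ha, rfl⟩
        exact ⟨a, ha, hNP a ha⟩
      · rintro ⟨a, ha, rfl⟩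
        exact ⟨a, ha, (hNP a ha).symm⟩
    have h2 : Bσ.map N ≤ RN := by
      rw [hRN, AddMonoidHom.range_eq_map N]
      exact AddSubgroup.map_mono le_top
    rw [h1, ← AddSubgroup.relIndex_mul_relIndex _ _ _ h2 hRNB, mul_comm]
    congr 1
    rw [hRN, AddMonoidHom.range_eq_map N, AddSubgroup.relIndex_map_map, top_sup_eq,
      AddSubgroup.relIndex_top_right]
  · have h1 : (M.map D).relIndex M = (M ⊔ Bσ).index := by
      conv_lhs => rw [hM, AddMonoidHom.range_eq_map D]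
      rw [AddSubgroup.relIndex_map_map, top_sup_eq, AddSubgroup.relIndex_top_right,
        ← AddMonoidHom.range_eq_map]
    have h2 : M ⊔ Bσ ≤ Bσ ⊔ BN := sup_le (hMBN.trans le_sup_right) le_sup_left
    rw [h1, ← AddSubgroup.relIndex_mul_index h2, mul_comm]
    congr 1
    rw [← hsup, AddSubgroup.relIndex_sup_left]
  · have h1 : M ≤ (M ⊔ Bσ) ⊓ BN := le_inf le_sup_left hMBN
    rw [← AddSubgroup.relIndex_mul_relIndex _ _ _ h1 inf_le_right, AddSubgroup.inf_relIndex_right]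
    congr 1
    rw [hmod, AddSubgroup.relIndex_sup_left]
  · have h1 : P.ker ⊓ Bσ = Bσ ⊓ BN := by
      ext a
      constructor
      · rintro ⟨h1, h2⟩
        refine ⟨h2, ?_⟩
        show N a = 0
        rw [hNP a h2]
        exact h1
      · rintro ⟨h1, h2⟩
        refine ⟨?_, h1⟩
        show P a = 0
        rw [← hNP a h1]
        exact h2
    have h2 : Bσ ⊓ M = M ⊓ (Bσ ⊓ BN) := by
      apply le_antisymm
      · exact le_inf inf_le_right (le_inf inf_le_left (inf_le_right.trans hMBN))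
      · exact le_inf (inf_le_right.trans inf_le_left) inf_le_left
    rw [h1, h2, ← AddSubgroup.relIndex_bot_left (Bσ ⊓ BN),
      ← AddSubgroup.relIndex_bot_left (M ⊓ (Bσ ⊓ BN)), ← AddSubgroup.inf_relIndex_right M (Bσ ⊓ BN),
      mul_comm]
    exact (AddSubgroup.relIndex_mul_relIndex ⊥ (M ⊓ (Bσ ⊓ BN)) (Bσ ⊓ BN) bot_le inf_le_right).symm

/-- (CH1) -/
theorem herbrand_eq (hσ : σ ^ p = 1) (hA : QFin (mulp p A)) :
    Finite (Hhat0 p σ) ∧ Finite (Hhat1 p σ) ∧ QFin (mulp p (fixσ σ)) ∧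
    ((Nat.card (Hhat0 p σ) : ℚ) / Nat.card (Hhat1 p σ)) ^ (p - 1) * qInd (mulp p A) =
      qInd (mulp p (fixσ σ)) ^ p := by
  set D : A →+ A := (σ - 1 : AddMonoid.End A) with hD
  set N : A →+ A := normσ p σ with hN
  set P : A →+ A := mulp p A with hP
  have hDa : ∀ a, D a = σ a - a := fun _ => rfl
  have hPa : ∀ a, P a = p • a := fun _ => rfl
  set M : AddSubgroup A := D.range with hM
  obtain ⟨hA1, hA2⟩ := Chev_qFin_iff.1 hA
  -- Step A
  have hMq : QFin (mulp p M) := by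
    obtain ⟨c1, c2⟩ := Chev_conv M (mulp p M) P (Chev_mulp_coe p M)
    refine Chev_qFin_iff.2 ⟨?_, ?_⟩
    · rw [c1]
      have h1 : M.map P = P.range.map D := by
        ext y
        constructor
        · rintro ⟨_, ⟨a, rfl⟩, rfl⟩
          exact ⟨P a, ⟨a, rfl⟩, by rw [hPa, hPa, map_nsmul]⟩
        · rintro ⟨_, ⟨a, rfl⟩, rfl⟩
          exact ⟨D a, ⟨a, rfl⟩, by rw [hPa, hPa, map_nsmul]⟩
      rw [h1]
      conv_lhs => rw [hM, AddMonoidHom.range_eq_map D]
      rw [AddSubgroup.relIndex_map_map, top_sup_eq, AddSubgroup.relIndex_top_right]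
      intro h0
      have := AddSubgroup.index_dvd_of_le (le_sup_left : P.range ≤ P.range ⊔ D.ker)
      rw [h0] at this
      exact hA1 (Nat.eq_zero_of_zero_dvd this)
    · rw [c2]
      intro h0
      have := AddSubgroup.card_dvd_of_le (inf_le_left : P.ker ⊓ M ≤ P.ker)
      rw [h0] at this
      exact hA2 (Nat.eq_zero_of_zero_dvd this)
  -- Step B
  obtain ⟨hBq, hses⟩ := qInd_ses_sub (fixσ σ).subtype D.rangeRestrict Subtype.coe_injective
    D.rangeRestrict_surjective (fun a => by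
      constructor
      · intro h
        exact ⟨⟨a, congrArg Subtype.val h⟩, rfl⟩
      · rintro ⟨a', rfl⟩
        exact Subtype.ext a'.2)
    (mulp p (fixσ σ)) P (mulp p M) (fun a => rfl) (fun a => Subtype.ext (by
      show D (P a) = p • D a
      rw [hPa, map_nsmul])) hA hMq
  -- Step C
  let τ : AddMonoid.End M := AddMonoidHom.codRestrict (AddMonoidHom.comp σ M.subtype) M (by
    rintro ⟨_, ⟨a, rfl⟩⟩
    exact ⟨σ a, by
      show D (σ a) = σ (D a)
      rw [hDa, hDa, map_sub]⟩)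
  have hτ : ∀ x : M, ((τ x : M) : A) = σ x := fun _ => rfl
  have hτpow : ∀ (i : ℕ) (x : M), (((τ ^ i) x : M) : A) = (σ ^ i) x := by
    intro i
    induction i with
    | zero => intro x; rfl
    | succ i ih =>
      intro x
      rw [pow_succ, pow_succ]
      show (((τ ^ i) (τ x) : M) : A) = (σ ^ i) (σ x)
      rw [ih, hτ]
  have hτN : ∑ i ∈ Finset.range p, τ ^ i = 0 := by
    ext x
    have h1 : ((∑ i ∈ Finset.range p, τ ^ i : AddMonoid.End M) x) = ∑ i ∈ Finset.range p, (τ ^ i) x :=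
      AddMonoidHom.finsetSum_apply _ _ _
    rw [h1, AddSubgroup.val_finsetSum, Finset.sum_congr rfl (fun i _ => hτpow i x)]
    have h2 : N x = ∑ i ∈ Finset.range p, (σ ^ i) x := AddMonoidHom.finsetSum_apply _ _ _
    rw [← h2]
    obtain ⟨_, ⟨a, rfl⟩⟩ := x
    exact Chev_ND p σ hσ a
  obtain ⟨hDq, hcyc⟩ := Chev_qInd_cyclo p τ hτN hMq
  -- Step D
  obtain ⟨x, w, v, r1, r2, r3, r4⟩ := Chev_R1 D N P (Chev_DN p σ hσ) (Chev_ND p σ hσ)
    (fun a ha => Chev_N_fix p σ ha)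
  obtain ⟨c1, c2⟩ := Chev_conv M (τ - 1 : AddMonoid.End M) D (fun _ => rfl)
  obtain ⟨c3, c4⟩ := Chev_conv (fixσ σ) (mulp p (fixσ σ)) P (Chev_mulp_coe p (fixσ σ))
  obtain ⟨d1, d2⟩ := Chev_qFin_iff.1 hDq
  obtain ⟨b1, b2⟩ := Chev_qFin_iff.1 hBq
  have ha : Nat.card (Hhat0 p σ) = N.range.relIndex D.ker := rfl
  have hb : Nat.card (Hhat1 p σ) = D.range.relIndex N.ker := rfl
  have hfix : fixσ σ = D.ker := rfl
  rw [c1, r2] at d1
  rw [c2] at d2
  rw [c3, hfix, r1] at b1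
  rw [c4, hfix, r4] at b2
  have hx : x ≠ 0 := fun h => d1 (by rw [h, zero_mul])
  have hw : w ≠ 0 := fun h => d1 (by rw [h, mul_zero])
  have hv : v ≠ 0 := fun h => b2 (by rw [h, zero_mul])
  have ha0 : N.range.relIndex D.ker ≠ 0 := fun h => b1 (by rw [h, zero_mul])
  have hb0 : D.range.relIndex N.ker ≠ 0 := by rw [r3]; exact mul_ne_zero hv hw
  refine ⟨(Nat.card_ne_zero.1 (ha ▸ ha0)).2, (Nat.card_ne_zero.1 (hb ▸ hb0)).2, hBq, ?_⟩
  rw [hses, hcyc, Chev_qInd_eq (mulp p (fixσ σ)), Chev_qInd_eq (τ - 1 : AddMonoid.End M), c1, c2, c3,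
    c4, ha, hb, hfix, r1, r2, r3, r4]
  have hx' : (x : ℚ) ≠ 0 := by exact_mod_cast hx
  have hw' : (w : ℚ) ≠ 0 := by exact_mod_cast hw
  have hv' : (v : ℚ) ≠ 0 := by exact_mod_cast hv
  have hs' : (Nat.card ↥(D.ker ⊓ M) : ℚ) ≠ 0 := by exact_mod_cast d2
  have ha' : (N.range.relIndex D.ker : ℚ) ≠ 0 := by exact_mod_cast ha0
  obtain ⟨n, hn⟩ : ∃ n, p = n + 1 := ⟨p - 1, by have := hp.out.one_le; omega⟩
  rw [hn, Nat.add_sub_cancel]
  push_cast
  generalize (Nat.card ↥(D.ker ⊓ M) : ℚ) = s at *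
  generalize (N.range.relIndex D.ker : ℚ) = a at *
  rw [pow_succ (a * x / (v * s)) n]
  have e1 : a / (v * w) = (a * x / (v * s)) / (x * w / s) := by field_simp
  rw [e1, div_pow]
  have e2 : ((x : ℚ) * w / s) ^ n ≠ 0 := pow_ne_zero _ (div_ne_zero (mul_ne_zero hx' hw') hs')
  field_simp

/-- **Chevalley's formula** `h(A)^(p-1) = p^(p r(A^σ) - r(A))`, `p^r(B) = |B/p| / |B[p]|`. -/
theorem chevalley (hσ : σ ^ p = 1)
    [Finite (modp p A)] [Finite (torp p A)] :
    Finite (Hhat0 p σ) ∧ Finite (Hhat1 p σ) ∧ Finite (modp p (fixσ σ)) ∧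
    Nat.card (Hhat0 p σ) ^ (p - 1) * Nat.card (modp p A) * Nat.card (torp p (fixσ σ)) ^ p =
      Nat.card (Hhat1 p σ) ^ (p - 1) * Nat.card (torp p A) * Nat.card (modp p (fixσ σ)) ^ p := by
  have hA : QFin (mulp p A) := ⟨inferInstanceAs (Finite (modp p A)), inferInstanceAs (Finite (torp p A))⟩
  obtain ⟨h0, h1, hB, heq⟩ := herbrand_eq p σ hσ hA
  refine ⟨h0, h1, hB.1, ?_⟩
  have : Finite (modp p (fixσ σ)) := hB.1
  have : Finite (torp p (fixσ σ)) := hB.2
  have e1 : qInd (mulp p A) = (Nat.card (modp p A) : ℚ) / Nat.card (torp p A) := rfl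
  have e2 : qInd (mulp p (fixσ σ))
      = (Nat.card (modp p (fixσ σ)) : ℚ) / Nat.card (torp p (fixσ σ)) := rfl
  rw [e1, e2] at heq
  have n1 : (Nat.card (Hhat1 p σ) : ℚ) ≠ 0 := by exact_mod_cast Nat.card_pos.ne'
  have n2 : (Nat.card (torp p A) : ℚ) ≠ 0 := by exact_mod_cast Nat.card_pos.ne'
  have n3 : (Nat.card (torp p (fixσ σ)) : ℚ) ≠ 0 := by exact_mod_cast Nat.card_pos.ne'
  rw [div_pow, div_pow] at heq
  field_simp at heq
  have : ((Nat.card (Hhat0 p σ) ^ (p - 1) * Nat.card (modp p A) * Nat.card (torp p (fixσ σ)) ^ p : ℕ) : ℚ)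
      = ((Nat.card (Hhat1 p σ) ^ (p - 1) * Nat.card (torp p A) * Nat.card (modp p (fixσ σ)) ^ p : ℕ) : ℚ) := by
    push_cast
    linarith
  exact_mod_cast this

end Chevalley

end Fermat.Agent.S55Lib
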