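import Fermat.Agent.S55.RootDefs

/-!
# S55, chapter H: the `q`-index of an endomorphism
-/

set_option autoImplicit false

namespace Fermat.Agent.S55Lib

open groupCohomology

section QIndex

variable {A : Type} [AddCommGroup A]

/-- `f` has finite kernel and cokernel -/
def QFin (f : A →+ A) : Prop := Finite (A ⧸ f.range) ∧ Finite f.ker

/-- `q(f) = |coker f| / |ker f|` -/
noncomputable def qInd (f : A →+ A) : ℚ := (Nat.card (A ⧸ f.range) : ℚ) / Nat.card f.ker

lemma Chev_qFin_iff {f : A →+ A} : QFin f ↔ f.range.index ≠ 0 ∧ Nat.card f.ker ≠ 0 := by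
  unfold QFin
  rw [AddSubgroup.index_ne_zero_iff_finite, Nat.card_ne_zero]
  exact ⟨fun h => ⟨h.1, ⟨0⟩, h.2⟩, fun h => ⟨h.1, h.2.2⟩⟩

lemma Chev_qInd_eq (f : A →+ A) : qInd f = (f.range.index : ℚ) / Nat.card f.ker := rfl

/-- (Q0) -/
theorem qInd_pos {f : A →+ A} (h : QFin f) : 0 < qInd f := by
  obtain ⟨h1, h2⟩ := Chev_qFin_iff.1 h
  rw [Chev_qInd_eq]
  have h1' : (0 : ℚ) < f.range.index := by exact_mod_cast Nat.pos_of_ne_zero h1
  have h2' : (0 : ℚ) < Nat.card f.ker := by exact_mod_cast Nat.pos_of_ne_zero h2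
  exact div_pos h1' h2'

/-- the arithmetic core of the kernel-cokernel sequence of a composition -/
theorem Chev_comp_core (f g : A →+ A) :
    ∃ a b t : ℕ, (f.comp g).range.index = f.range.index * a ∧ g.range.index = a * b ∧
      Nat.card f.ker = b * t ∧ Nat.card (f.comp g).ker = Nat.card g.ker * t := by
  refine ⟨(g.range ⊔ f.ker).index, g.range.relIndex f.ker, Nat.card ↥(g.range ⊓ f.ker), ?_, ?_, ?_,
    ?_⟩
  · have h1 : (f.comp g).range = g.range.map f := (AddMonoidHom.map_range f g).symm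
    have h2 : (f.comp g).range ≤ f.range := by
      rw [h1, AddMonoidHom.range_eq_map f]
      exact AddSubgroup.map_mono le_top
    rw [← AddSubgroup.relIndex_mul_index h2, mul_comm]
    congr 1
    rw [h1, AddMonoidHom.range_eq_map f, AddSubgroup.relIndex_map_map, top_sup_eq,
      AddSubgroup.relIndex_top_right]
  · rw [← AddSubgroup.relIndex_mul_index (le_sup_left : g.range ≤ g.range ⊔ f.ker),
      AddSubgroup.relIndex_sup_left, mul_comm]
  · rw [← AddSubgroup.relIndex_bot_left f.ker, ← AddSubgroup.relIndex_bot_left (g.range ⊓ f.ker),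
      ← AddSubgroup.inf_relIndex_right g.range f.ker, mul_comm]
    exact (AddSubgroup.relIndex_mul_relIndex ⊥ (g.range ⊓ f.ker) f.ker bot_le inf_le_right).symm
  · have h1 : g.ker ≤ (f.comp g).ker := fun x hx => by
      rw [AddMonoidHom.mem_ker] at hx ⊢
      rw [AddMonoidHom.comp_apply, hx, map_zero]
    have h2 : (f.comp g).ker.map g = g.range ⊓ f.ker := by
      ext y
      constructor
      · rintro ⟨x, hx, rfl⟩
        exact ⟨⟨x, rfl⟩, hx⟩
      · rintro ⟨⟨x, rfl⟩, hx⟩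
        exact ⟨x, hx, rfl⟩
    rw [← AddSubgroup.relIndex_bot_left, ← AddSubgroup.relIndex_bot_left,
      ← AddSubgroup.relIndex_bot_left,
      ← AddSubgroup.relIndex_mul_relIndex ⊥ g.ker (f.comp g).ker bot_le h1]
    congr 1
    rw [← h2, ← (AddSubgroup.map_bot g), AddSubgroup.relIndex_map_map, bot_sup_eq,
      sup_eq_left.2 h1]

/-- (Q3) composition (kernel-cokernel sequence) -/
theorem qInd_comp {f g : A →+ A} (hf : QFin f) (hg : QFin g) :
    QFin (f.comp g) ∧ qInd (f.comp g) = qInd f * qInd g := by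
  obtain ⟨a, b, t, h1, h2, h3, h4⟩ := Chev_comp_core f g
  obtain ⟨hf1, hf2⟩ := Chev_qFin_iff.1 hf
  obtain ⟨hg1, hg2⟩ := Chev_qFin_iff.1 hg
  have ha : a ≠ 0 := fun h => hg1 (by rw [h2, h, zero_mul])
  have hb : b ≠ 0 := fun h => hg1 (by rw [h2, h, mul_zero])
  have ht : t ≠ 0 := fun h => hf2 (by rw [h3, h, mul_zero])
  refine ⟨Chev_qFin_iff.2 ⟨by rw [h1]; exact mul_ne_zero hf1 ha, by
    rw [h4]; exact mul_ne_zero hg2 ht⟩, ?_⟩
  rw [Chev_qInd_eq, Chev_qInd_eq, Chev_qInd_eq, h1, h4, h2, h3]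
  have ha' : (a : ℚ) ≠ 0 := by exact_mod_cast ha
  have hb' : (b : ℚ) ≠ 0 := by exact_mod_cast hb
  have ht' : (t : ℚ) ≠ 0 := by exact_mod_cast ht
  have hg2' : (Nat.card g.ker : ℚ) ≠ 0 := by exact_mod_cast hg2
  push_cast
  field_simp

/-- the arithmetic core of the snake lemma -/
theorem Chev_ses_core {A' A'' : Type} [AddCommGroup A'] [AddCommGroup A'']
    (i : A' →+ A) (π : A →+ A'') (hi : Function.Injective i) (hπ : Function.Surjective π)
    (hex : ∀ a, π a = 0 ↔ ∃ a', i a' = a)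
    (f' : A' →+ A') (f : A →+ A) (f'' : A'' →+ A'')
    (h1 : ∀ a, i (f' a) = f (i a)) (h2 : ∀ a, π (f a) = f'' (π a)) :
    ∃ d e g : ℕ, f.range.index = f''.range.index * e ∧ f'.range.index = d * e ∧
      Nat.card f''.ker = g * d ∧ Nat.card f.ker = g * Nat.card f'.ker := by
  set I := i.range with hI
  set K := f.ker with hK
  set R := f.range with hR
  set T := f''.ker.comap π with hT
  have hker : π.ker = I := by
    ext a
    rw [AddMonoidHom.mem_ker, hex]
    rfl
  have hIT : I ≤ T := by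
    rintro _ ⟨a', rfl⟩
    show f'' (π (i a')) = 0
    rw [(hex _).2 ⟨a', rfl⟩, map_zero]
  have hKT : K ≤ T := fun a ha => by
    show f'' (π a) = 0
    rw [← h2, (AddMonoidHom.mem_ker).1 ha, map_zero]
  have hfI : I.map f = f'.range.map i := by
    rw [hI, AddMonoidHom.map_range, AddMonoidHom.map_range]
    congr 1
    ext a
    exact (h1 a).symm
  have hfI_le : I.map f ≤ R ⊓ I := by
    refine le_inf ?_ ?_
    · rw [hR, AddMonoidHom.range_eq_map f]
      exact AddSubgroup.map_mono le_top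
    · rw [hfI, hI, AddMonoidHom.range_eq_map i]
      exact AddSubgroup.map_mono le_top
  have hRI : R ⊓ I = T.map f := by
    ext b
    constructor
    · rintro ⟨⟨a, rfl⟩, hb⟩
      refine ⟨a, ?_, rfl⟩
      show f'' (π a) = 0
      rw [← h2]
      rw [← hker] at hb
      exact hb
    · rintro ⟨a, ha, rfl⟩
      refine ⟨⟨a, rfl⟩, ?_⟩
      rw [← hker]
      show π (f a) = 0
      rw [h2]
      exact ha
  refine ⟨(I ⊔ K).relIndex T, R.relIndex I, I.relIndex K, ?_, ?_, ?_, ?_⟩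
  · have h3 : f''.range = R.map π := by
      rw [hR, AddMonoidHom.map_range]
      have : π.comp f = f''.comp π := by
        ext a
        exact h2 a
      rw [this, ← AddMonoidHom.map_range, AddMonoidHom.range_eq_top.2 hπ,
        ← AddMonoidHom.range_eq_map]
    rw [h3, AddSubgroup.index_map, AddMonoidHom.range_eq_top.2 hπ, AddSubgroup.index_top, mul_one,
      hker, ← AddSubgroup.relIndex_mul_index (le_sup_left : R ≤ R ⊔ I),
      AddSubgroup.relIndex_sup_left, mul_comm]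
  · rw [← AddSubgroup.relIndex_top_right, ← AddSubgroup.relIndex_map_map_of_injective _ _ hi,
      ← AddMonoidHom.range_eq_map, ← hfI, ← hI,
      ← AddSubgroup.relIndex_mul_relIndex _ _ _ hfI_le inf_le_right,
      AddSubgroup.inf_relIndex_right]
    congr 1
    rw [hRI, AddSubgroup.relIndex_map_map, ← hK, sup_eq_left.2 hKT]
  · have h3 : f''.ker = T.map π := by
      rw [hT, AddSubgroup.map_comap_eq_self_of_surjective hπ]
    rw [h3, ← AddSubgroup.relIndex_bot_left, ← AddSubgroup.map_bot π, AddSubgroup.relIndex_map_map,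
      bot_sup_eq, hker, sup_eq_left.2 hIT,
      ← AddSubgroup.relIndex_mul_relIndex I (I ⊔ K) T le_sup_left (sup_le hIT hKT),
      AddSubgroup.relIndex_sup_left]
  · have h3 : f'.ker.map i = I ⊓ K := by
      ext a
      constructor
      · rintro ⟨a', ha', rfl⟩
        refine ⟨⟨a', rfl⟩, ?_⟩
        show f (i a') = 0
        rw [← h1, (AddMonoidHom.mem_ker).1 ha', map_zero]
      · rintro ⟨⟨a', rfl⟩, ha⟩
        refine ⟨a', ?_, rfl⟩
        apply hi
        rw [h1, map_zero]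
        exact ha
    rw [← AddSubgroup.relIndex_bot_left, ← AddSubgroup.relIndex_bot_left,
      ← AddSubgroup.relIndex_map_map_of_injective ⊥ f'.ker hi, AddSubgroup.map_bot, h3,
      ← AddSubgroup.inf_relIndex_right I K, mul_comm]
    exact (AddSubgroup.relIndex_mul_relIndex ⊥ (I ⊓ K) K bot_le inf_le_right).symm

/-- (Q1) finite groups -/
theorem qInd_of_finite [Finite A] (f : A →+ A) : QFin f ∧ qInd f = 1 := by
  have hq : QFin f := ⟨inferInstance, inferInstance⟩
  refine ⟨hq, ?_⟩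
  obtain ⟨-, h2⟩ := Chev_qFin_iff.1 hq
  have h3 := AddSubgroup.card_mul_index f.range
  have h4 := AddSubgroup.card_mul_index f.ker
  rw [AddSubgroup.index_ker] at h4
  have h5 : Nat.card f.range ≠ 0 := Nat.card_pos.ne'
  have h6 : f.range.index = Nat.card f.ker := by
    apply Nat.eq_of_mul_eq_mul_left (Nat.pos_of_ne_zero h5)
    rw [h3, ← h4, mul_comm]
  rw [Chev_qInd_eq, h6]
  exact div_self (by exact_mod_cast h2)

/-- (Q1') bijective endomorphisms -/
theorem qInd_of_bijective (f : A →+ A) (hf : Function.Bijective f) : QFin f ∧ qInd f = 1 := by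
  have h1 : f.range = ⊤ := AddMonoidHom.range_eq_top.2 hf.2
  have h2 : f.ker = ⊥ := (AddMonoidHom.ker_eq_bot_iff f).2 hf.1
  have h3 : f.range.index = 1 := by rw [h1, AddSubgroup.index_top]
  have h4 : Nat.card f.ker = 1 := by rw [h2, AddSubgroup.card_bot]
  refine ⟨Chev_qFin_iff.2 ⟨by rw [h3]; exact one_ne_zero, by rw [h4]; exact one_ne_zero⟩, ?_⟩
  rw [Chev_qInd_eq, h3, h4]
  norm_num

lemma Chev_ses_arith {c c' c'' k k' k'' d e g : ℕ} (h1 : c = c'' * e) (h2 : c' = d * e)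
    (h3 : k'' = g * d) (h4 : k = g * k') (hd : d ≠ 0) (he : e ≠ 0) (hg : g ≠ 0) (hk' : k' ≠ 0) :
    (c : ℚ) / k = (c' : ℚ) / k' * ((c'' : ℚ) / k'') := by
  have hd' : (d : ℚ) ≠ 0 := by exact_mod_cast hd
  have he' : (e : ℚ) ≠ 0 := by exact_mod_cast he
  have hg' : (g : ℚ) ≠ 0 := by exact_mod_cast hg
  have hk'' : (k' : ℚ) ≠ 0 := by exact_mod_cast hk'
  rw [h1, h2, h3, h4]
  push_cast
  field_simp

/-- (Q2) short exact sequences (snake lemma): sub and quotient finite `q` ⇒ middle -/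
theorem qInd_ses {A' A'' : Type} [AddCommGroup A'] [AddCommGroup A'']
    (i : A' →+ A) (π : A →+ A'') (hi : Function.Injective i) (hπ : Function.Surjective π)
    (hex : ∀ a, π a = 0 ↔ ∃ a', i a' = a)
    (f' : A' →+ A') (f : A →+ A) (f'' : A'' →+ A'')
    (h1 : ∀ a, i (f' a) = f (i a)) (h2 : ∀ a, π (f a) = f'' (π a))
    (hf' : QFin f') (hf'' : QFin f'') : QFin f ∧ qInd f = qInd f' * qInd f'' := by
  obtain ⟨d, e, g, e1, e2, e3, e4⟩ := Chev_ses_core i π hi hπ hex f' f f'' h1 h2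
  obtain ⟨a1, a2⟩ := Chev_qFin_iff.1 hf'
  obtain ⟨b1, b2⟩ := Chev_qFin_iff.1 hf''
  have hd : d ≠ 0 := fun h => a1 (by rw [e2, h, zero_mul])
  have he : e ≠ 0 := fun h => a1 (by rw [e2, h, mul_zero])
  have hg : g ≠ 0 := fun h => b2 (by rw [e3, h, zero_mul])
  exact ⟨Chev_qFin_iff.2 ⟨by rw [e1]; exact mul_ne_zero b1 he, by
    rw [e4]; exact mul_ne_zero hg a2⟩, Chev_ses_arith e1 e2 e3 e4 hd he hg a2⟩

/-- (Q2') middle and quotient ⇒ sub -/
theorem qInd_ses_sub {A' A'' : Type} [AddCommGroup A'] [AddCommGroup A'']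
    (i : A' →+ A) (π : A →+ A'') (hi : Function.Injective i) (hπ : Function.Surjective π)
    (hex : ∀ a, π a = 0 ↔ ∃ a', i a' = a)
    (f' : A' →+ A') (f : A →+ A) (f'' : A'' →+ A'')
    (h1 : ∀ a, i (f' a) = f (i a)) (h2 : ∀ a, π (f a) = f'' (π a))
    (hf : QFin f) (hf'' : QFin f'') : QFin f' ∧ qInd f = qInd f' * qInd f'' := by
  obtain ⟨d, e, g, e1, e2, e3, e4⟩ := Chev_ses_core i π hi hπ hex f' f f'' h1 h2
  obtain ⟨a1, a2⟩ := Chev_qFin_iff.1 hf
  obtain ⟨b1, b2⟩ := Chev_qFin_iff.1 hf''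
  have he : e ≠ 0 := fun h => a1 (by rw [e1, h, mul_zero])
  have hd : d ≠ 0 := fun h => b2 (by rw [e3, h, mul_zero])
  have hg : g ≠ 0 := fun h => b2 (by rw [e3, h, zero_mul])
  have hk' : Nat.card f'.ker ≠ 0 := fun h => a2 (by rw [e4, h, mul_zero])
  exact ⟨Chev_qFin_iff.2 ⟨by rw [e2]; exact mul_ne_zero hd he, hk'⟩,
    Chev_ses_arith e1 e2 e3 e4 hd he hg hk'⟩

/-- (Q2'') middle and sub ⇒ quotient -/
theorem qInd_ses_quot {A' A'' : Type} [AddCommGroup A'] [AddCommGroup A'']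
    (i : A' →+ A) (π : A →+ A'') (hi : Function.Injective i) (hπ : Function.Surjective π)
    (hex : ∀ a, π a = 0 ↔ ∃ a', i a' = a)
    (f' : A' →+ A') (f : A →+ A) (f'' : A'' →+ A'')
    (h1 : ∀ a, i (f' a) = f (i a)) (h2 : ∀ a, π (f a) = f'' (π a))
    (hf : QFin f) (hf' : QFin f') : QFin f'' ∧ qInd f = qInd f' * qInd f'' := by
  obtain ⟨d, e, g, e1, e2, e3, e4⟩ := Chev_ses_core i π hi hπ hex f' f f'' h1 h2
  obtain ⟨a1, a2⟩ := Chev_qFin_iff.1 hf
  obtain ⟨b1, b2⟩ := Chev_qFin_iff.1 hf'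
  have he : e ≠ 0 := fun h => a1 (by rw [e1, h, mul_zero])
  have hc'' : f''.range.index ≠ 0 := fun h => a1 (by rw [e1, h, zero_mul])
  have hd : d ≠ 0 := fun h => b1 (by rw [e2, h, zero_mul])
  have hg : g ≠ 0 := fun h => a2 (by rw [e4, h, zero_mul])
  exact ⟨Chev_qFin_iff.2 ⟨hc'', by rw [e3]; exact mul_ne_zero hg hd⟩,
    Chev_ses_arith e1 e2 e3 e4 hd he hg b2⟩

/-- multiplication by `p` -/
abbrev mulp (p : ℕ) (A : Type) [AddCommGroup A] : A →+ A := p • AddMonoidHom.id A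

end QIndex

end Fermat.Agent.S55Lib
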