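import Fermat.Agent.S55.H.QIndex

/-!
# S55, chapter H: on a module with `1 + τ + ... + τ^(p-1) = 0`, `q_p = q_{τ-1}^(p-1)`
-/

set_option autoImplicit false

namespace Fermat.Agent.S55Lib

open Polynomial

section

variable {X : Type} [AddCommGroup X]

lemma Chev_congr {f g : X →+ X} (h1 : f.range = g.range) (h2 : f.ker = g.ker) :
    (QFin f ↔ QFin g) ∧ qInd f = qInd g := by
  rw [Chev_qFin_iff, Chev_qFin_iff, Chev_qInd_eq, Chev_qInd_eq, h1, h2]
  exact ⟨Iff.rfl, rfl⟩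

/-- `∏_{i<k} (1 - X^(i+1))` -/
noncomputable def Chev_Q (k : ℕ) : ℤ[X] := ∏ i ∈ Finset.range k, (1 - Polynomial.X ^ (i + 1))

lemma Chev_Q_succ (k : ℕ) : Chev_Q (k + 1) = Chev_Q k * (1 - Polynomial.X ^ (k + 1)) :=
  Finset.prod_range_succ _ _

/-- the product formula in `ℤ[X]` -/
lemma Chev_cyclo_dvd (p : ℕ) [hp : Fact p.Prime] :
    (∑ i ∈ Finset.range p, (Polynomial.X : ℤ[X]) ^ i) ∣ Chev_Q (p - 1) - Polynomial.C (p : ℤ) := by
  have hp0 : p ≠ 0 := hp.out.ne_zero
  have hζ : IsPrimitiveRoot (Complex.exp (2 * Real.pi * Complex.I / p)) p :=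
    Complex.isPrimitiveRoot_exp p hp0
  set ζ := Complex.exp (2 * Real.pi * Complex.I / p) with hζdef
  rw [← Polynomial.cyclotomic_prime ℤ p, Polynomial.cyclotomic_eq_minpoly hζ hp.out.pos]
  apply minpoly.isIntegrallyClosed_dvd (hζ.isIntegral hp.out.pos)
  have h1 : IsPrimitiveRoot ζ ((p - 1) + 1) := by
    rwa [Nat.sub_add_cancel hp.out.one_le]
  have h2 := h1.prod_one_sub_pow_eq_order
  simp only [Chev_Q, map_sub, map_prod, map_one, map_pow, aeval_X, aeval_C]
  rw [h2]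
  have : ((p - 1 : ℕ) : ℂ) + 1 = (p : ℂ) := by
    have := Nat.sub_add_cancel hp.out.one_le
    exact_mod_cast this
  rw [this]
  simp

variable (p : ℕ) [hp : Fact p.Prime] (τ : AddMonoid.End X)

lemma Chev_aeval_Q (hN : ∑ i ∈ Finset.range p, τ ^ i = 0) :
    Polynomial.aeval τ (Chev_Q (p - 1)) = (p : AddMonoid.End X) := by
  obtain ⟨W, hW⟩ := Chev_cyclo_dvd p
  have h1 := congrArg (Polynomial.aeval τ) hW
  rw [map_sub, map_mul, map_sum] at h1
  simp only [map_pow, aeval_X, hN, zero_mul, aeval_C] at h1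
  rw [sub_eq_zero] at h1
  rw [h1]
  simp

omit hp in
lemma Chev_pow_p (hN : ∑ i ∈ Finset.range p, τ ^ i = 0) : τ ^ p = 1 := by
  have := geom_sum_mul τ p
  rw [hN, zero_mul] at this
  exact (sub_eq_zero.1 this.symm)

omit hp in
/-- `1 - x^n` is a left and right multiple of `1 - x` -/
lemma Chev_le_of_pow (x : AddMonoid.End X) (n : ℕ) :
    AddMonoidHom.range (1 - x ^ n : AddMonoid.End X) ≤ AddMonoidHom.range (1 - x : AddMonoid.End X)
    ∧ AddMonoidHom.ker (1 - x : AddMonoid.End X) ≤ AddMonoidHom.ker (1 - x ^ n : AddMonoid.End X) := by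
  constructor
  · rintro _ ⟨y, rfl⟩
    rw [← mul_neg_geom_sum x n]
    exact ⟨(∑ i ∈ Finset.range n, x ^ i : AddMonoid.End X) y, rfl⟩
  · intro y hy
    have hy' : (1 - x : AddMonoid.End X) y = 0 := hy
    show (1 - x ^ n : AddMonoid.End X) y = 0
    rw [← geom_sum_mul_neg x n]
    show (∑ i ∈ Finset.range n, x ^ i : AddMonoid.End X) ((1 - x : AddMonoid.End X) y) = 0
    rw [hy', map_zero]

lemma Chev_same (hτ : τ ^ p = 1) {i : ℕ} (hi0 : 0 < i) (hip : i < p) :
    AddMonoidHom.range (1 - τ ^ i : AddMonoid.End X) = AddMonoidHom.range (1 - τ : AddMonoid.End X)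
    ∧ AddMonoidHom.ker (1 - τ ^ i : AddMonoid.End X) = AddMonoidHom.ker (1 - τ : AddMonoid.End X) := by
  have hcop : Nat.Coprime i p := (Nat.coprime_of_lt_prime hi0.ne' hip hp.out).symm
  obtain ⟨j, -, hj⟩ := Nat.exists_mul_mod_eq_one_of_coprime hcop hp.out.one_lt
  have h1 : (τ ^ i) ^ j = τ := by
    rw [← pow_mul, pow_eq_pow_mod _ hτ, hj, pow_one]
  have h2 := Chev_le_of_pow τ i
  have h3 := Chev_le_of_pow (τ ^ i) j
  rw [h1] at h3
  exact ⟨le_antisymm h2.1 h3.1, le_antisymm h3.2 h2.2⟩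

omit hp in
lemma Chev_natCast_eq : ((p : AddMonoid.End X) : X →+ X) = mulp p X := by
  ext x
  simp only [AddMonoid.End.natCast_apply]
  rfl

/-- **`q_p = q_{τ-1}^(p-1)`** on a module killed by `1 + τ + ... + τ^(p-1)`. -/
theorem Chev_qInd_cyclo (hN : ∑ i ∈ Finset.range p, τ ^ i = 0) (hX : QFin (mulp p X)) :
    QFin (τ - 1 : AddMonoid.End X) ∧
      qInd (mulp p X) = qInd (τ - 1 : AddMonoid.End X) ^ (p - 1) := by
  have hτ := Chev_pow_p p τ hN
  have hQ := Chev_aeval_Q p τ hN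
  -- `p = W (1 - τ) = (1 - τ) W`
  obtain ⟨n, hn⟩ : ∃ n, p - 1 = n + 1 := ⟨p - 2, by have := hp.out.two_le; omega⟩
  set W : ℤ[X] := ∏ i ∈ Finset.range n, (1 - Polynomial.X ^ (i + 1 + 1)) with hW
  have hQW : Chev_Q (p - 1) = W * (1 - Polynomial.X) := by
    rw [hn, Chev_Q, Finset.prod_range_succ']
    simp [hW]
  have h1 : (p : AddMonoid.End X) = Polynomial.aeval τ W * (1 - τ) := by
    rw [← hQ, hQW, map_mul]
    simp
  have h2 : (p : AddMonoid.End X) = (1 - τ) * Polynomial.aeval τ W := by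
    rw [← hQ, hQW, mul_comm, map_mul]
    simp
  obtain ⟨hX1, hX2⟩ := Chev_qFin_iff.1 hX
  -- `QFin (1 - τ)`
  have hr : (mulp p X).range ≤ AddMonoidHom.range (1 - τ : AddMonoid.End X) := by
    rintro _ ⟨y, rfl⟩
    rw [← Chev_natCast_eq, h2]
    exact ⟨Polynomial.aeval τ W y, rfl⟩
  have hk : AddMonoidHom.ker (1 - τ : AddMonoid.End X) ≤ (mulp p X).ker := by
    intro y hy
    have hy' : (1 - τ : AddMonoid.End X) y = 0 := hy
    rw [← Chev_natCast_eq, h1]
    show Polynomial.aeval τ W ((1 - τ : AddMonoid.End X) y) = 0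
    rw [hy', map_zero]
  have hd : QFin (1 - τ : AddMonoid.End X) := by
    refine Chev_qFin_iff.2 ⟨fun h0 => hX1 ?_, fun h0 => hX2 ?_⟩
    · have := AddSubgroup.index_dvd_of_le hr
      rw [h0] at this
      exact Nat.eq_zero_of_zero_dvd this
    · have := AddSubgroup.card_dvd_of_le hk
      rw [h0] at this
      exact Nat.eq_zero_of_zero_dvd this
  -- induction
  have hind : ∀ k, k ≤ p - 1 → QFin (Polynomial.aeval τ (Chev_Q k) : AddMonoid.End X) ∧
      qInd (Polynomial.aeval τ (Chev_Q k) : AddMonoid.End X)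
        = qInd (1 - τ : AddMonoid.End X) ^ k := by
    intro k
    induction k with
    | zero =>
      intro _
      have : (Polynomial.aeval τ (Chev_Q 0) : AddMonoid.End X) = AddMonoidHom.id X := by
        simp [Chev_Q]
        rfl
      rw [this, pow_zero]
      exact qInd_of_bijective _ Function.bijective_id
    | succ k ih =>
      intro hk1
      obtain ⟨ih1, ih2⟩ := ih (by omega)
      obtain ⟨s1, s2⟩ := Chev_same p τ hτ (i := k + 1) (by omega) (by omega)
      obtain ⟨c1, c2⟩ := Chev_congr s1 s2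
      have h3 := qInd_comp ih1 (c1.2 hd)
      have h4 : (Polynomial.aeval τ (Chev_Q (k + 1)) : AddMonoid.End X)
          = AddMonoidHom.comp (Polynomial.aeval τ (Chev_Q k) : AddMonoid.End X)
            (1 - τ ^ (k + 1) : AddMonoid.End X) := by
        rw [Chev_Q_succ, map_mul]
        simp
        rfl
      rw [h4]
      refine ⟨h3.1, ?_⟩
      rw [h3.2, ih2, c2, pow_succ]
  have hfin := hind (p - 1) le_rfl
  rw [hQ] at hfin
  -- `τ - 1` versus `1 - τ`
  have hneg : (τ - 1 : AddMonoid.End X) = -(1 - τ : AddMonoid.End X) := by abel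
  have e1 : AddMonoidHom.range (τ - 1 : AddMonoid.End X)
      = AddMonoidHom.range (1 - τ : AddMonoid.End X) := by
    rw [hneg]
    ext y
    constructor
    · rintro ⟨x, rfl⟩
      exact ⟨-x, by
        show (1 - τ : AddMonoid.End X) (-x) = -((1 - τ : AddMonoid.End X) x)
        rw [map_neg]⟩
    · rintro ⟨x, rfl⟩
      exact ⟨-x, by
        show -((1 - τ : AddMonoid.End X) (-x)) = (1 - τ : AddMonoid.End X) x
        rw [map_neg, neg_neg]⟩
  have e2 : AddMonoidHom.ker (τ - 1 : AddMonoid.End X)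
      = AddMonoidHom.ker (1 - τ : AddMonoid.End X) := by
    rw [hneg]
    ext y
    show -((1 - τ : AddMonoid.End X) y) = 0 ↔ (1 - τ : AddMonoid.End X) y = 0
    exact neg_eq_zero
  obtain ⟨c1, c2⟩ := Chev_congr e1 e2
  refine ⟨c1.2 hd, ?_⟩
  rw [c2, ← hfin.2, ← Chev_natCast_eq]

end

end Fermat.Agent.S55Lib
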